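import Mathlib

/-!
# S16 / InvC (INV attempt C, architect helper17): definitions

Explicit triangular ("Cholesky") route to the 4-dimensional Gaussian Poisson summation formula.

* `ee s = exp (2 π i s)`.
* `kc α τ = 1 / (-i α τ) ^ (1/2)`: the constant of the one-dimensional formula.
* `Tri`: triangular data, pivots `c₁..c₄ > 0` and the strictly upper triangular `u`;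
  the quadratic form is `Q(X) = ½ ∑ cᵢ Lᵢ(X)²`, `L₁ = X₁ + u₁₂X₂ + u₁₃X₃ + u₁₄X₄`,
  `L₂ = X₂ + u₂₃X₃ + u₂₄X₄`, `L₃ = X₃ + u₃₄X₄`, `L₄ = X₄`.
* Index types `X1 = Unit × ℤ ∋ (_, x₄)`, `X2 = X1 × ℤ ∋ ((_, x₄), x₃)`, `X3 = X2 × ℤ`, `X4 = X3 × ℤ`:
  the LAST component is the variable peeled at that level (`x₄` first, `x₁` last).
* `g1 .. g4`: the summands `e(Q(x+v) τ + μ·(x+v))` of the levels (as products of one-variable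
  factors, in exactly the shape produced by `step`), `T1 .. T4`: the dual sides (nested sums,
  constants included).
-/

set_option autoImplicit false

open Complex
open scoped Real

noncomputable section

namespace Fermat.Agent.S16.InvC

/-- `e(s) = exp (2 π i s)`. -/
def ee (s : ℂ) : ℂ := cexp (2 * π * I * s)

/-- The constant `1 / (-i α τ) ^ (1/2)` of the one-dimensional Poisson formula. -/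
def kc (α : ℝ) (τ : ℂ) : ℂ := 1 / (-I * (α : ℂ) * τ) ^ (1 / 2 : ℂ)

/-- The one-variable factor `e(½ α (n + v₀ + l)² τ + μ₀ (n + v₀))`. -/
def fac (α : ℝ) (τ : ℂ) (v₀ μ₀ l : ℝ) (n : ℤ) : ℂ :=
  ee (((α / 2 * ((n : ℝ) + v₀ + l) ^ 2 : ℝ) : ℂ) * τ + ((μ₀ * ((n : ℝ) + v₀) : ℝ) : ℂ))

/-- The dual one-variable factor `e(-(k - μ₀)² / (2 α τ) + k v₀)`. -/
def dfac (α : ℝ) (τ : ℂ) (v₀ μ₀ : ℝ) (k : ℤ) : ℂ :=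
  ee (-((((k : ℝ) - μ₀) ^ 2 : ℝ) : ℂ) / (2 * (α : ℂ) * τ) + (((k : ℝ) * v₀ : ℝ) : ℂ))

/-- Triangular data: pivots and the strictly upper triangular coefficients. -/
structure Tri where
  c₁ : ℝ
  c₂ : ℝ
  c₃ : ℝ
  c₄ : ℝ
  u₁₂ : ℝ
  u₁₃ : ℝ
  u₁₄ : ℝ
  u₂₃ : ℝ
  u₂₄ : ℝ
  u₃₄ : ℝ
  hc₁ : 0 < c₁
  hc₂ : 0 < c₂
  hc₃ : 0 < c₃
  hc₄ : 0 < c₄

abbrev X1 : Type := Unit × ℤ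
abbrev X2 : Type := X1 × ℤ
abbrev X3 : Type := X2 × ℤ
abbrev X4 : Type := X3 × ℤ

variable (D : Tri) (τ : ℂ)

/-- `u₃₄ X₄`. -/
def l2 (v₄ : ℝ) (x : X1) : ℝ := D.u₃₄ * ((x.2 : ℝ) + v₄)

/-- `u₂₃ X₃ + u₂₄ X₄`. -/
def l3 (v₃ v₄ : ℝ) (x : X2) : ℝ := D.u₂₃ * ((x.2 : ℝ) + v₃) + D.u₂₄ * ((x.1.2 : ℝ) + v₄)

/-- `u₁₂ X₂ + u₁₃ X₃ + u₁₄ X₄`. -/
def l4 (v₂ v₃ v₄ : ℝ) (x : X3) : ℝ :=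
  D.u₁₂ * ((x.2 : ℝ) + v₂) + D.u₁₃ * ((x.1.2 : ℝ) + v₃) + D.u₁₄ * ((x.1.1.2 : ℝ) + v₄)

def g1 (v₄ μ₄ : ℝ) (x : X1) : ℂ := fac D.c₄ τ v₄ μ₄ 0 x.2 * 1

def g2 (v₃ v₄ μ₃ μ₄ : ℝ) (x : X2) : ℂ :=
  fac D.c₃ τ v₃ μ₃ (l2 D v₄ x.1) x.2 * g1 D τ v₄ μ₄ x.1

def g3 (v₂ v₃ v₄ μ₂ μ₃ μ₄ : ℝ) (x : X3) : ℂ :=
  fac D.c₂ τ v₂ μ₂ (l3 D v₃ v₄ x.1) x.2 * g2 D τ v₃ v₄ μ₃ μ₄ x.1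

def g4 (v₁ v₂ v₃ v₄ μ₁ μ₂ μ₃ μ₄ : ℝ) (x : X4) : ℂ :=
  fac D.c₁ τ v₁ μ₁ (l4 D v₂ v₃ v₄ x.1) x.2 * g3 D τ v₂ v₃ v₄ μ₂ μ₃ μ₄ x.1

def T1 (v₄ μ₄ : ℝ) : ℂ := kc D.c₄ τ * ∑' k : ℤ, dfac D.c₄ τ v₄ μ₄ k * 1

def T2 (v₃ v₄ μ₃ μ₄ : ℝ) : ℂ :=
  kc D.c₃ τ * ∑' k : ℤ, dfac D.c₃ τ v₃ μ₃ k * T1 D τ v₄ (μ₄ + ((k : ℝ) - μ₃) * D.u₃₄)

def T3 (v₂ v₃ v₄ μ₂ μ₃ μ₄ : ℝ) : ℂ :=
  kc D.c₂ τ * ∑' k : ℤ, dfac D.c₂ τ v₂ μ₂ k *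
    T2 D τ v₃ v₄ (μ₃ + ((k : ℝ) - μ₂) * D.u₂₃) (μ₄ + ((k : ℝ) - μ₂) * D.u₂₄)

def T4 (v₁ v₂ v₃ v₄ μ₁ μ₂ μ₃ μ₄ : ℝ) : ℂ :=
  kc D.c₁ τ * ∑' k : ℤ, dfac D.c₁ τ v₁ μ₁ k *
    T3 D τ v₂ v₃ v₄ (μ₂ + ((k : ℝ) - μ₁) * D.u₁₂) (μ₃ + ((k : ℝ) - μ₁) * D.u₁₃)
      (μ₄ + ((k : ℝ) - μ₁) * D.u₁₄)

/-! The dual frequencies at `μ = 0`, exactly as they come out of unfolding `T4`, and the product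
of the four dual factors. -/

def mu2 (y₁ : ℤ) : ℝ := 0 + ((y₁ : ℝ) - 0) * D.u₁₂

def mu3 (y₁ y₂ : ℤ) : ℝ := 0 + ((y₁ : ℝ) - 0) * D.u₁₃ + ((y₂ : ℝ) - mu2 D y₁) * D.u₂₃

def mu4 (y₁ y₂ y₃ : ℤ) : ℝ :=
  0 + ((y₁ : ℝ) - 0) * D.u₁₄ + ((y₂ : ℝ) - mu2 D y₁) * D.u₂₄ + ((y₃ : ℝ) - mu3 D y₁ y₂) * D.u₃₄

def dprod (v₁ v₂ v₃ v₄ : ℝ) (y₁ y₂ y₃ y₄ : ℤ) : ℂ :=
  dfac D.c₁ τ v₁ 0 y₁ * (dfac D.c₂ τ v₂ (mu2 D y₁) y₂ * (dfac D.c₃ τ v₃ (mu3 D y₁ y₂) y₃ *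
    (dfac D.c₄ τ v₄ (mu4 D y₁ y₂ y₃) y₄ * 1)))

end Fermat.Agent.S16.InvC
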