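import Mathlib
import Fermat.Agent.S16.HeckeTrick.Defs
import Fermat.Agent.S16.LAT.Main
import Fermat.Agent.S16.InvC.Defs

/-!
# S16 / InvC / AlgDefs: the concrete triangular data of `latA t a m` and the index equivalence (owner: helper17)

With `q = 4 t - 1`, `q m = a² + p`:
`xᵀ A x = 2 (x₁ + x₂/2 + (a/2) x₄)² + (q/2) (x₂ - (2a/q) x₃ - (a/q) x₄)² + (2p/q) (x₃ + x₄/2)² + (p/2) x₄²`,
pivots `(2, q/2, 2p/q, p/2)` (product `p²`), `u₁₂ = 1/2`, `u₁₃ = 0`, `u₁₄ = a/2`, `u₂₃ = -2a/q`,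
`u₂₄ = -a/q`, `u₃₄ = 1/2`.
-/

set_option autoImplicit false

open Complex
open scoped Real

noncomputable section

namespace Fermat.Agent.S16.InvC

open Fermat.Agent.S16 (latA latB)

/-- The triangular data of `latA t a m` (`q = 4 t - 1`). -/
def latTri (p : ℕ) (hp : 0 < p) (t a : ℤ) (ht : 0 < t) : Tri where
  c₁ := 2
  c₂ := (4 * (t : ℝ) - 1) / 2
  c₃ := 2 * (p : ℝ) / (4 * (t : ℝ) - 1)
  c₄ := (p : ℝ) / 2
  u₁₂ := 1 / 2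
  u₁₃ := 0
  u₁₄ := (a : ℝ) / 2
  u₂₃ := -2 * (a : ℝ) / (4 * (t : ℝ) - 1)
  u₂₄ := -(a : ℝ) / (4 * (t : ℝ) - 1)
  u₃₄ := 1 / 2
  hc₁ := by norm_num
  hc₂ := by
    have : (1 : ℝ) ≤ (t : ℝ) := by exact_mod_cast ht
    linarith
  hc₃ := by
    have h1 : (1 : ℝ) ≤ (t : ℝ) := by exact_mod_cast ht
    have h2 : (0 : ℝ) < (p : ℝ) := by exact_mod_cast hp
    have h3 : (0 : ℝ) < 4 * (t : ℝ) - 1 := by linarith
    positivity
  hc₄ := by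
    have h2 : (0 : ℝ) < (p : ℝ) := by exact_mod_cast hp
    positivity

/-- `X4 ≃ (Fin 4 → ℤ)`: `((((_, x₄), x₃), x₂), x₁) ↦ ![x₁, x₂, x₃, x₄]`. -/
def e4 : X4 ≃ (Fin 4 → ℤ) where
  toFun x := ![x.2, x.1.2, x.1.1.2, x.1.1.1.2]
  invFun y := ((((((), y 3), y 2), y 1), y 0))
  left_inv x := rfl
  right_inv y := by
    ext i
    fin_cases i <;> rfl

/-- The dual summand `e(-Q_B(y)/(p τ) + y·v)` (exactly the summand of `TH.InvStatement`). -/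
def dualTerm (p : ℕ) (t a m : ℤ) (τ : ℂ) (v : Fin 4 → ℝ) (y : Fin 4 → ℤ) : ℂ :=
  cexp (2 * π * I * (-(TH.quad (latB t a m) (fun i => (y i : ℝ)) : ℂ) / ((p : ℂ) * τ)
    + ∑ i, (y i : ℂ) * (v i : ℂ)))

/-- `yᵀ B y = zᵀ A z` for `z = (y₄, -y₃, y₂, -y₁)`. -/
theorem quad_latB_eq (t a m : ℤ) (y : Fin 4 → ℝ) :
    TH.quad (latB t a m) y = TH.quad (latA t a m) ![y 3, -y 2, y 1, -y 0] := by
  simp [TH.quad, latA, latB, Fin.sum_univ_four]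
  ring

end Fermat.Agent.S16.InvC
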