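import Mathlib
import Fermat.Agent.S16.InvC.Defs

/-!
# S16 / InvC / Basic: `ee` and the norms of the one-variable factors (owner: helper17)
-/

set_option autoImplicit false

open Complex
open scoped Real

noncomputable section

namespace Fermat.Agent.S16.InvC

theorem ee_add (a b : ℂ) : ee (a + b) = ee a * ee b := by
  unfold ee
  rw [← Complex.exp_add]
  congr 1
  ring

theorem norm_ee (s : ℂ) : ‖ee s‖ = Real.exp (-(2 * π * s.im)) := by
  unfold ee
  rw [Complex.norm_exp]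
  congr 1
  simp only [Complex.mul_re, Complex.mul_im, Complex.ofReal_re, Complex.ofReal_im, Complex.I_re,
    Complex.I_im, Complex.re_ofNat, Complex.im_ofNat]
  ring

theorem norm_ee_ofReal (r : ℝ) : ‖ee (r : ℂ)‖ = 1 := by
  rw [norm_ee, Complex.ofReal_im]
  simp

theorem norm_fac (α : ℝ) (τ : ℂ) (v₀ μ₀ l : ℝ) (n : ℤ) :
    ‖fac α τ v₀ μ₀ l n‖ = Real.exp (-(π * α * τ.im) * ((n : ℝ) + v₀ + l) ^ 2) := by
  unfold fac
  rw [norm_ee]
  congr 1
  simp only [Complex.add_im, Complex.mul_im, Complex.ofReal_re, Complex.ofReal_im]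
  ring

theorem norm_dfac (α : ℝ) (τ : ℂ) (v₀ μ₀ : ℝ) (k : ℤ) :
    ‖dfac α τ v₀ μ₀ k‖ =
      Real.exp (-(π * (τ.im / Complex.normSq τ) / α) * ((k : ℝ) - μ₀) ^ 2) := by
  unfold dfac
  rw [norm_ee]
  congr 1
  have h1 : (-((((k : ℝ) - μ₀) ^ 2 : ℝ) : ℂ) / (2 * (α : ℂ) * τ)) =
      ((-(((k : ℝ) - μ₀) ^ 2) / (2 * α) : ℝ) : ℂ) * τ⁻¹ := by
    push_cast
    rw [div_eq_mul_inv, div_eq_mul_inv, mul_inv, mul_inv]
    ring
  rw [h1]
  simp only [Complex.add_im, Complex.mul_im, Complex.ofReal_re, Complex.ofReal_im, Complex.inv_im]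
  ring

end Fermat.Agent.S16.InvC
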