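import Mathlib
import Fermat.Agent.S16.InvC.Basic
import Fermat.Agent.S16.InvC.AlgDefs

/-!
# S16 / InvC / AlgDual: the product of the four dual factors for `latTri` is the dual summand

Unfold `dprod, dfac, mu2, mu3, mu4, latTri, dualTerm`, combine the exponentials, compare exponents:
with `η₁ = y₁`, `η₂ = y₂ - y₁/2`, `η₃ = y₃ + (2a/q)(y₂ - y₁/2)`, `η₄ = y₄ - (a/2) y₁ - y₃/2`
(`ηᵢ = yᵢ - muᵢ`), pivots `c = (2, q/2, 2p/q, p/2)`: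
`∑ ηᵢ² / (2 cᵢ) = yᵀ B y / (2 p) = Q_B(y) / p`   (uses `h : q m = a² + p`; `TH.quad`, `latB`,
`Fin.sum_univ_four`), and the linear terms give `∑ yᵢ vᵢ`.  `τ ≠ 0` from `hτ`.
-/

set_option autoImplicit false

open Complex
open scoped Real

noncomputable section

namespace Fermat.Agent.S16.InvC

open Fermat.Agent.S16 (latA latB)

/-- The product of the nested dual factors is the dual summand:
`∑ ηᵢ²/(2cᵢ) = yᵀ B y / (2p)` with `η₁ = y₁`, `η₂ = y₂ - y₁/2`, `η₃ = y₃ + (2a/q)(y₂ - y₁/2)`,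
`η₄ = y₄ - (a/2) y₁ - y₃/2` (`ηᵢ = yᵢ - muᵢ`). -/
theorem dprod_eq (p : ℕ) (hp : 0 < p) (t a m : ℤ) (ht : 0 < t) (h : (4 * t - 1) * m = a ^ 2 + p)
    {τ : ℂ} (hτ : 0 < τ.im) (v : Fin 4 → ℝ) (y₁ y₂ y₃ y₄ : ℤ) :
    dprod (latTri p hp t a ht) τ (v 0) (v 1) (v 2) (v 3) y₁ y₂ y₃ y₄ =
      dualTerm p t a m τ v ![y₁, y₂, y₃, y₄] := by
  sorry

end Fermat.Agent.S16.InvC
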