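import Mathlib
import Fermat.Agent.S16.InvC.Basic
import Fermat.Agent.S16.InvC.AlgDefs

/-!
# S16 / InvC / AlgG4: the level-4 summand for `latTri` is `e(Q_A(x + v) τ)`

Unfold `g4, g3, g2, g1, fac, l4, l3, l2, latTri, e4` (all frequencies are `0`), combine the four
exponentials (`ee_add` / `Complex.exp_add`), and compare exponents: with `q = 4t - 1`,
`q m = a² + p` (`h`), `X = x + v`:
`2 Q_A(X) = XᵀAX = 2 (X₁ + X₂/2 + (a/2) X₄)² + (q/2) (X₂ - (2a/q) X₃ - (a/q) X₄)²
  + (2p/q) (X₃ + X₄/2)² + (p/2) X₄²`   (`TH.quad`, `latA`, `Fin.sum_univ_four`; `field_simp`, then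
`linear_combination (…) * h` with `h` cast to `ℝ` or `ℂ`).
-/

set_option autoImplicit false

open Complex
open scoped Real

noncomputable section

namespace Fermat.Agent.S16.InvC

open Fermat.Agent.S16 (latA latB)

/-- The level-4 summand for the concrete data is the summand of `TH.InvStatement`. -/
theorem g4_eq (p : ℕ) (hp : 0 < p) (t a m : ℤ) (ht : 0 < t) (h : (4 * t - 1) * m = a ^ 2 + p)
    (τ : ℂ) (v : Fin 4 → ℝ) (x : X4) :
    g4 (latTri p hp t a ht) τ (v 0) (v 1) (v 2) (v 3) 0 0 0 0 x =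
      cexp (2 * π * I * (TH.quad (latA t a m) (fun i => ((e4 x i : ℤ) : ℝ) + v i) : ℂ) * τ) := by
  sorry

end Fermat.Agent.S16.InvC
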