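import Mathlib
import Fermat.Agent.S16.InvC.Basic

/-!
# S16 / InvC / Bound: summability of the one-variable factors, uniformly in the shift

The norms are Gaussians (`norm_fac`, `norm_dfac` in Basic.lean):
`‖fac α τ v₀ μ₀ l n‖ = exp(-(π α Im τ) (n + v₀ + l)²)`,
`‖dfac α τ v₀ μ₀ k‖ = exp(-(π (Im τ / |τ|²) / α) (k - μ₀)²)`.
`gauss_shift_bound`: `∑_n exp(-c (n + w)²)` is summable and bounded uniformly in `w`
(it is `1`-periodic in `w` — reindex `n ↦ n + ⌊w⌋` —, and for `0 ≤ w ≤ 1`: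
`(n + w)² ≥ n²/2 - 1`, so the terms are `≤ e^c · exp(-(c/2) n²)`; summability of
`n ↦ exp(-(c/2) n²)` over `ℤ`: e.g. `summable_exp_neg_mul_int_sq`-type lemmas of
`Mathlib/Analysis/SpecialFunctions/Gaussian/*` or `summable_jacobiTheta₂_term_iff`, or comparison
with a geometric series `exp(-(c/2) |n|)`).
-/

set_option autoImplicit false

open Complex
open scoped Real

noncomputable section

namespace Fermat.Agent.S16.InvC

/-- Uniform bound for shifted Gaussian sums. -/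
theorem gauss_shift_bound {c : ℝ} (hc : 0 < c) :
    ∃ M : ℝ, ∀ w : ℝ, Summable (fun n : ℤ => Real.exp (-c * ((n : ℝ) + w) ^ 2)) ∧
      ∑' n : ℤ, Real.exp (-c * ((n : ℝ) + w) ^ 2) ≤ M := by
  sorry

theorem fac_summable {α : ℝ} (hα : 0 < α) {τ : ℂ} (hτ : 0 < τ.im) (v₀ μ₀ l : ℝ) :
    Summable (fac α τ v₀ μ₀ l) := by
  sorry

theorem dfac_summable {α : ℝ} (hα : 0 < α) {τ : ℂ} (hτ : 0 < τ.im) (v₀ μ₀ : ℝ) :
    Summable (dfac α τ v₀ μ₀) := by
  sorry

/-- The norms of the one-variable factors are summable with a bound uniform in the shifts. -/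
theorem fac_norm_bound {α : ℝ} (hα : 0 < α) {τ : ℂ} (hτ : 0 < τ.im) :
    ∃ M : ℝ, ∀ v₀ μ₀ l : ℝ, ∑' n : ℤ, ‖fac α τ v₀ μ₀ l n‖ ≤ M := by
  sorry

end Fermat.Agent.S16.InvC
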