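import Mathlib
import Fermat.Agent.S16.InvC.Basic

/-!
# S16 / InvC / Formula: the one-dimensional Poisson formula with real shift and real frequency

For `α > 0`, `Im τ > 0`, real `v₀, μ₀, l` (`w = v₀ + l` is the total shift):
`∑_n e(½ α (n + v₀ + l)² τ + μ₀ (n + v₀)) = (-i α τ)^{-1/2} ∑_k e(-(k - μ₀)²/(2 α τ) + k v₀) e((k - μ₀) l)`.
Source: `Complex.tsum_exp_neg_quadratic (ha : 0 < a.re) (b : ℂ) :
  ∑' n : ℤ, cexp (-π * a * n ^ 2 + 2 * π * b * n) = 1 / a ^ (1 / 2 : ℂ) * ∑' n : ℤ, cexp (-π / a * (n + I * b) ^ 2)`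
with `a = -i α τ` (`Re a = α Im τ > 0`) and `b = -a w + i μ₀`:
`LHS term = exp(-π a w² + 2π i μ₀ w - 2π i μ₀ l) · exp(-π a n² + 2π b n)` and
`exp(-π a w² + 2π i μ₀ w) · exp(-(π/a) (n + i b)²) = exp(-(π/a)(n - μ₀)² + 2π i n w)`,
`-π/a = -π i/(α τ)`; pull the constant factors out with `tsum_mul_left` (no summability needed).
-/

set_option autoImplicit false

open Complex
open scoped Real

noncomputable section

namespace Fermat.Agent.S16.InvC

/-- The left hand term: a constant times the summand of `Complex.tsum_exp_neg_quadratic`. -/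
private theorem formula_aux_lhs (α : ℝ) (τ : ℂ) (v₀ μ₀ l : ℝ) (n : ℤ) :
    fac α τ v₀ μ₀ l n =
      cexp (-π * (-I * (α : ℂ) * τ) * ((v₀ : ℂ) + l) ^ 2 + 2 * π * I * μ₀ * v₀) *
        cexp (-π * (-I * (α : ℂ) * τ) * (n : ℂ) ^ 2 +
          2 * π * (-(-I * (α : ℂ) * τ) * ((v₀ : ℂ) + l) + I * μ₀) * n) := by
  rw [← Complex.exp_add]
  unfold fac ee
  congr 1
  push_cast
  ring

/-- The right hand term: the same constant times the dual summand of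
`Complex.tsum_exp_neg_quadratic`. -/
private theorem formula_aux_rhs {α : ℝ} (hα : α ≠ 0) {τ : ℂ} (hτ : τ ≠ 0) (v₀ μ₀ l : ℝ) (n : ℤ) :
    cexp (-π * (-I * (α : ℂ) * τ) * ((v₀ : ℂ) + l) ^ 2 + 2 * π * I * μ₀ * v₀) *
        cexp (-π / (-I * (α : ℂ) * τ) *
          ((n : ℂ) + I * (-(-I * (α : ℂ) * τ) * ((v₀ : ℂ) + l) + I * μ₀)) ^ 2) =
      dfac α τ v₀ μ₀ n * ee ((((n : ℝ) - μ₀) * l : ℝ) : ℂ) := by
  have hα' : (α : ℂ) ≠ 0 := by exact_mod_cast hα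
  have hI : (I : ℂ) ≠ 0 := I_ne_zero
  rw [← Complex.exp_add]
  unfold dfac ee
  rw [← Complex.exp_add]
  congr 1
  push_cast
  field_simp
  ring_nf
  simp only [I_sq, I_pow_four]
  ring

/-- One-dimensional Poisson summation (Gaussian, real shift `v₀ + l`, real frequency `μ₀`). -/
theorem oneDim_formula {α : ℝ} (hα : 0 < α) {τ : ℂ} (hτ : 0 < τ.im) (v₀ μ₀ l : ℝ) :
    ∑' n : ℤ, fac α τ v₀ μ₀ l n =
      kc α τ * ∑' k : ℤ, dfac α τ v₀ μ₀ k * ee ((((k : ℝ) - μ₀) * l : ℝ) : ℂ) := by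
  have hτ0 : τ ≠ 0 := by
    rintro rfl
    simp at hτ
  have ha : 0 < (-I * (α : ℂ) * τ).re := by
    have : (-I * (α : ℂ) * τ).re = α * τ.im := by simp
    rw [this]
    exact mul_pos hα hτ
  rw [tsum_congr (formula_aux_lhs α τ v₀ μ₀ l), tsum_mul_left,
    Complex.tsum_exp_neg_quadratic ha, mul_left_comm, ← tsum_mul_left,
    tsum_congr (formula_aux_rhs hα.ne' hτ0 v₀ μ₀ l)]
  rfl

end Fermat.Agent.S16.InvC
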