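import Mathlib
import Fermat.Agent.S16.InvC.Basic
import Fermat.Agent.S16.InvC.Bound
import Fermat.Agent.S16.InvC.Formula

/-!
# S16 / InvC / Step: the abstract one-step lemma (peel one variable)

`g : X → ℂ` is the (summable) inner family, `l : X → ℝ` the real linear form coupling the new
variable `n` to the inner variables, `R s = ∑_x g x e(s l x)` the inner sum with shifted frequency.
Then `∑_{(x, n)} e(½ α (n + v₀ + l x)² τ + μ₀ (n + v₀)) g x
  = (-i α τ)^{-1/2} ∑_k e(-(k - μ₀)²/(2 α τ) + k v₀) R (k - μ₀)`.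
Proof: the family on `X × ℤ` is summable (norm `= ‖g x‖ · Gaussian(n + v₀ + l x)`, fibre sums bounded
uniformly by `fac_norm_bound`, `summable_prod_of_nonneg`); sum over `n` first
(`Summable.tsum_prod'`), `oneDim_formula`; the double family
`(x, k) ↦ g x · dfac k · e((k - μ₀) l x)` has norm `‖g x‖ · ‖dfac k‖` (summable product:
`summable_mul_of_summable_norm`), so the sums can be exchanged (`Summable.tsum_comm`).
-/

set_option autoImplicit false

open Complex
open scoped Real

noncomputable section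

namespace Fermat.Agent.S16.InvC

theorem step {X : Type*} {α : ℝ} (hα : 0 < α) {τ : ℂ} (hτ : 0 < τ.im) (v₀ μ₀ : ℝ)
    (g : X → ℂ) (hg : Summable g) (l : X → ℝ) (R : ℝ → ℂ)
    (hR : ∀ s : ℝ, ∑' x, g x * ee ((s * l x : ℝ) : ℂ) = R s) :
    Summable (fun x : X × ℤ => fac α τ v₀ μ₀ (l x.1) x.2 * g x.1) ∧
    ∑' x : X × ℤ, fac α τ v₀ μ₀ (l x.1) x.2 * g x.1 =
      kc α τ * ∑' k : ℤ, dfac α τ v₀ μ₀ k * R ((k : ℝ) - μ₀) := by
  sorry

end Fermat.Agent.S16.InvC
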