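import Mathlib
import Fermat.Agent.S16.InvC.Step

/-!
# S16 / InvC / Chain: four applications of `step`

`level k`: the `k`-variable family `g_k` is summable and its sum is `T_k` (nested dual sums),
for all real shifts `v` and all real frequencies `μ`.
`g_k_freq`: multiplying `g_k` by the unimodular phase `e(s · (linear form in X))` shifts the
frequencies (`ee_add`, `fac`, algebra).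
-/

set_option autoImplicit false

open Complex
open scoped Real

noncomputable section

namespace Fermat.Agent.S16.InvC

variable (D : Tri) (τ : ℂ)

theorem fac_freq (α : ℝ) (v₀ μ₀ l s u : ℝ) (n : ℤ) :
    fac α τ v₀ μ₀ l n * ee ((s * (u * ((n : ℝ) + v₀)) : ℝ) : ℂ) = fac α τ v₀ (μ₀ + s * u) l n := by
  unfold fac
  rw [← ee_add]
  congr 1
  push_cast
  ring

theorem g1_freq' (v₄ μ₄ s u : ℝ) (x : X1) :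
    g1 D τ v₄ μ₄ x * ee ((s * (u * ((x.2 : ℝ) + v₄)) : ℝ) : ℂ) = g1 D τ v₄ (μ₄ + s * u) x := by
  unfold g1
  rw [mul_one, mul_one, fac_freq]

theorem g2_freq' (v₃ v₄ μ₃ μ₄ s a b : ℝ) (x : X2) :
    g2 D τ v₃ v₄ μ₃ μ₄ x *
        ee ((s * (a * ((x.2 : ℝ) + v₃) + b * ((x.1.2 : ℝ) + v₄)) : ℝ) : ℂ) =
      g2 D τ v₃ v₄ (μ₃ + s * a) (μ₄ + s * b) x := by
  unfold g2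
  have e : ((s * (a * ((x.2 : ℝ) + v₃) + b * ((x.1.2 : ℝ) + v₄)) : ℝ) : ℂ) =
      ((s * (a * ((x.2 : ℝ) + v₃)) : ℝ) : ℂ) + ((s * (b * ((x.1.2 : ℝ) + v₄)) : ℝ) : ℂ) := by
    push_cast
    ring
  rw [e, ee_add, ← fac_freq τ D.c₃ v₃ μ₃ (l2 D v₄ x.1) s a x.2, ← g1_freq' D τ v₄ μ₄ s b x.1]
  ring

theorem g3_freq' (v₂ v₃ v₄ μ₂ μ₃ μ₄ s a b c : ℝ) (x : X3) :
    g3 D τ v₂ v₃ v₄ μ₂ μ₃ μ₄ x *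
        ee ((s * (a * ((x.2 : ℝ) + v₂) + b * ((x.1.2 : ℝ) + v₃) + c * ((x.1.1.2 : ℝ) + v₄)) : ℝ) : ℂ) =
      g3 D τ v₂ v₃ v₄ (μ₂ + s * a) (μ₃ + s * b) (μ₄ + s * c) x := by
  unfold g3
  have e : ((s * (a * ((x.2 : ℝ) + v₂) + b * ((x.1.2 : ℝ) + v₃) + c * ((x.1.1.2 : ℝ) + v₄)) : ℝ) : ℂ) =
      ((s * (a * ((x.2 : ℝ) + v₂)) : ℝ) : ℂ) +
        ((s * (b * ((x.1.2 : ℝ) + v₃) + c * ((x.1.1.2 : ℝ) + v₄)) : ℝ) : ℂ) := by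
    push_cast
    ring
  rw [e, ee_add, ← fac_freq τ D.c₂ v₂ μ₂ (l3 D v₃ v₄ x.1) s a x.2,
    ← g2_freq' D τ v₃ v₄ μ₃ μ₄ s b c x.1]
  ring

theorem g1_freq (v₄ μ₄ s : ℝ) (x : X1) :
    g1 D τ v₄ μ₄ x * ee ((s * l2 D v₄ x : ℝ) : ℂ) = g1 D τ v₄ (μ₄ + s * D.u₃₄) x :=
  g1_freq' D τ v₄ μ₄ s D.u₃₄ x

theorem g2_freq (v₃ v₄ μ₃ μ₄ s : ℝ) (x : X2) :
    g2 D τ v₃ v₄ μ₃ μ₄ x * ee ((s * l3 D v₃ v₄ x : ℝ) : ℂ) =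
      g2 D τ v₃ v₄ (μ₃ + s * D.u₂₃) (μ₄ + s * D.u₂₄) x :=
  g2_freq' D τ v₃ v₄ μ₃ μ₄ s D.u₂₃ D.u₂₄ x

theorem g3_freq (v₂ v₃ v₄ μ₂ μ₃ μ₄ s : ℝ) (x : X3) :
    g3 D τ v₂ v₃ v₄ μ₂ μ₃ μ₄ x * ee ((s * l4 D v₂ v₃ v₄ x : ℝ) : ℂ) =
      g3 D τ v₂ v₃ v₄ (μ₂ + s * D.u₁₂) (μ₃ + s * D.u₁₃) (μ₄ + s * D.u₁₄) x :=
  g3_freq' D τ v₂ v₃ v₄ μ₂ μ₃ μ₄ s D.u₁₂ D.u₁₃ D.u₁₄ x

variable {τ}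

theorem level1 (hτ : 0 < τ.im) (v₄ μ₄ : ℝ) :
    Summable (g1 D τ v₄ μ₄) ∧ ∑' x, g1 D τ v₄ μ₄ x = T1 D τ v₄ μ₄ :=
  step D.hc₄ hτ v₄ μ₄ (fun _ : Unit => (1 : ℂ)) (hasSum_fintype _).summable
    (fun _ => 0) (fun _ => 1) (by
      intro s
      simp [ee])

theorem level2 (hτ : 0 < τ.im) (v₃ v₄ μ₃ μ₄ : ℝ) :
    Summable (g2 D τ v₃ v₄ μ₃ μ₄) ∧ ∑' x, g2 D τ v₃ v₄ μ₃ μ₄ x = T2 D τ v₃ v₄ μ₃ μ₄ :=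
  step D.hc₃ hτ v₃ μ₃ (g1 D τ v₄ μ₄) (level1 D hτ v₄ μ₄).1 (l2 D v₄)
    (fun s => T1 D τ v₄ (μ₄ + s * D.u₃₄)) (by
      intro s
      rw [← (level1 D hτ v₄ (μ₄ + s * D.u₃₄)).2]
      exact tsum_congr (fun x => g1_freq D τ v₄ μ₄ s x))

theorem level3 (hτ : 0 < τ.im) (v₂ v₃ v₄ μ₂ μ₃ μ₄ : ℝ) :
    Summable (g3 D τ v₂ v₃ v₄ μ₂ μ₃ μ₄) ∧
      ∑' x, g3 D τ v₂ v₃ v₄ μ₂ μ₃ μ₄ x = T3 D τ v₂ v₃ v₄ μ₂ μ₃ μ₄ :=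
  step D.hc₂ hτ v₂ μ₂ (g2 D τ v₃ v₄ μ₃ μ₄) (level2 D hτ v₃ v₄ μ₃ μ₄).1 (l3 D v₃ v₄)
    (fun s => T2 D τ v₃ v₄ (μ₃ + s * D.u₂₃) (μ₄ + s * D.u₂₄)) (by
      intro s
      rw [← (level2 D hτ v₃ v₄ (μ₃ + s * D.u₂₃) (μ₄ + s * D.u₂₄)).2]
      exact tsum_congr (fun x => g2_freq D τ v₃ v₄ μ₃ μ₄ s x))

theorem level4 (hτ : 0 < τ.im) (v₁ v₂ v₃ v₄ μ₁ μ₂ μ₃ μ₄ : ℝ) :
    Summable (g4 D τ v₁ v₂ v₃ v₄ μ₁ μ₂ μ₃ μ₄) ∧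
      ∑' x, g4 D τ v₁ v₂ v₃ v₄ μ₁ μ₂ μ₃ μ₄ x = T4 D τ v₁ v₂ v₃ v₄ μ₁ μ₂ μ₃ μ₄ :=
  step D.hc₁ hτ v₁ μ₁ (g3 D τ v₂ v₃ v₄ μ₂ μ₃ μ₄) (level3 D hτ v₂ v₃ v₄ μ₂ μ₃ μ₄).1 (l4 D v₂ v₃ v₄)
    (fun s => T3 D τ v₂ v₃ v₄ (μ₂ + s * D.u₁₂) (μ₃ + s * D.u₁₃) (μ₄ + s * D.u₁₄)) (by
      intro s
      rw [← (level3 D hτ v₂ v₃ v₄ (μ₂ + s * D.u₁₂) (μ₃ + s * D.u₁₃) (μ₄ + s * D.u₁₄)).2]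
      exact tsum_congr (fun x => g3_freq D τ v₂ v₃ v₄ μ₂ μ₃ μ₄ s x))

end Fermat.Agent.S16.InvC
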