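import Mathlib
import Fermat.Agent.S16.InvC.Defs

/-!
# S16 / InvC / Const: the product of the four one-dimensional constants

`kc α τ = 1 / (-i α τ)^(1/2)` (principal branch).  For `α > 0`, `Im τ > 0`:
`(-i α τ)^(1/2) = √α · (-i τ)^(1/2)` (`Complex.log_ofReal_mul`, `Complex.cpow_def_of_ne_zero`), and
`((-i τ)^(1/2))^4 = (-i τ)^2 = -τ²` (`Complex.cpow_nat_inv_pow`), so the product of the four
constants with `c₁ c₂ c₃ c₄ = P²` is `1 / (P · (-τ²))`.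
-/

set_option autoImplicit false

open Complex
open scoped Real

noncomputable section

namespace Fermat.Agent.S16.InvC

theorem kc_prod {c₁ c₂ c₃ c₄ P : ℝ} (h₁ : 0 < c₁) (h₂ : 0 < c₂) (h₃ : 0 < c₃) (h₄ : 0 < c₄)
    (hP : 0 < P) (hprod : c₁ * c₂ * c₃ * c₄ = P ^ 2) {τ : ℂ} (hτ : 0 < τ.im) :
    kc c₁ τ * kc c₂ τ * kc c₃ τ * kc c₄ τ = 1 / (P : ℂ) * (-1 / τ ^ 2) := by
  sorry

end Fermat.Agent.S16.InvC
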