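import Mathlib
import Fermat.Agent.S16.InvC.Basic
import Fermat.Agent.S16.InvC.AlgDefs

/-!
# S16 / InvC / Dual: summability of the dual side from the summability of the direct side

`‖dualTerm p t a m τ v y‖ = exp(-2π Q_B(y) Im(-1/(p τ)))` (the phase `y·v` is real), and
`Q_B(y) = Q_A(σ y)` with the signed permutation `σ y = (y₄, -y₃, y₂, -y₁)` (`quad_latB_eq`), so the
norm is the norm of the direct summand at `τ' = -1/(p τ)` (`Im τ' > 0`), shift `0`, composed with
the injective map `σ` (`Summable.comp_injective`, `Summable.of_norm`).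
-/

set_option autoImplicit false

open Complex
open scoped Real

noncomputable section

namespace Fermat.Agent.S16.InvC

open Fermat.Agent.S16 (latA latB)

theorem dualTerm_summable (p : ℕ) (hp : 0 < p) (t a m : ℤ)
    (hS : ∀ τ' : ℂ, 0 < τ'.im → Summable (fun x : Fin 4 → ℤ =>
      cexp (2 * π * I * (TH.quad (latA t a m) (fun i => (x i : ℝ)) : ℂ) * τ')))
    {τ : ℂ} (hτ : 0 < τ.im) (v : Fin 4 → ℝ) : Summable (dualTerm p t a m τ v) := by
  sorry

end Fermat.Agent.S16.InvC
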