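import Mathlib

/-!
# S16 / InvC / NestedSum: a summable family on `Fin 4 → ℤ` can be summed coordinate by coordinate

Use an explicit equivalence `(Fin 4 → ℤ) ≃ ℤ × (ℤ × (ℤ × ℤ))` (`![y₁, y₂, y₃, y₄] ↔ (y₁, y₂, y₃, y₄)`),
`Equiv.tsum_eq`, `Equiv.summable_iff`, `Summable.tsum_prod'` (three times) and
`Summable.prod_factor` for the fibrewise summability.
-/

set_option autoImplicit false

open Complex
open scoped Real

noncomputable section

namespace Fermat.Agent.S16.InvC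

theorem tsum_nested (f : (Fin 4 → ℤ) → ℂ) (hf : Summable f) :
    ∑' y₁ : ℤ, ∑' y₂ : ℤ, ∑' y₃ : ℤ, ∑' y₄ : ℤ, f ![y₁, y₂, y₃, y₄] = ∑' y, f y := by
  sorry

end Fermat.Agent.S16.InvC
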