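import Mathlib
import Fermat.Agent.S16.InvC.Defs

/-!
# S16 / InvC / NestedT4: unfold `T4 → T3 → T2 → T1` at `μ = 0` and pull the constants out

`tsum_mul_left : ∑' x, a * f x = a * ∑' x, f x` needs no summability in a field.
`mu2, mu3, mu4, dprod` (Defs.lean) are defined exactly so that the unfolding matches syntactically.
-/

set_option autoImplicit false

open Complex
open scoped Real

noncomputable section

namespace Fermat.Agent.S16.InvC

theorem T4_nested (D : Tri) (τ : ℂ) (v₁ v₂ v₃ v₄ : ℝ) :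
    T4 D τ v₁ v₂ v₃ v₄ 0 0 0 0 = kc D.c₁ τ * kc D.c₂ τ * kc D.c₃ τ * kc D.c₄ τ *
      ∑' y₁ : ℤ, ∑' y₂ : ℤ, ∑' y₃ : ℤ, ∑' y₄ : ℤ, dprod D τ v₁ v₂ v₃ v₄ y₁ y₂ y₃ y₄ := by
  sorry

end Fermat.Agent.S16.InvC
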