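import Mathlib
import Fermat.Agent.S16.InvC.NestedT4
import Fermat.Agent.S16.InvC.NestedSum

/-!
# S16 / InvC / Nested: aggregator (NestedT4, NestedSum)
-/
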