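import Mathlib
import Fermat.Agent.S16.InvC.Basic
import Fermat.Agent.S16.InvC.Bound
import Fermat.Agent.S16.InvC.Formula

/-!
# S16 / InvC / OneDim: aggregator (Basic, Bound, Formula)
-/
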