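import Mathlib
import Fermat.Agent.S16.HeckeTrick.Defs
import Fermat.Agent.S16.LAT.Main
import Fermat.Agent.S16.InvC.Chain
import Fermat.Agent.S16.InvC.Const
import Fermat.Agent.S16.InvC.Alg
import Fermat.Agent.S16.InvC.Nested
import Fermat.Agent.S16.InvC.Dual

/-!
# S16 / InvC / Statement: (INV) for the concrete lattice `latA t a m`, `latB t a m`
(INV attempt C: explicit triangular route; architect helper17)
-/

set_option autoImplicit false

open Complex
open scoped Real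

noncomputable section

namespace Fermat.Agent.S16.InvC

open Fermat.Agent.S16 (latA latB)

theorem inv_statement_lat (p : ℕ) (hp : 0 < p) (t a m : ℤ) (ht : 0 < t)
    (h : (4 * t - 1) * m = a ^ 2 + p) :
    Fermat.Agent.S16.TH.InvStatement p (latA t a m) (latB t a m) := by
  have S1 : ∀ (v : Fin 4 → ℝ) (τ : ℂ), 0 < τ.im → Summable (fun x : Fin 4 → ℤ =>
      cexp (2 * π * I * (TH.quad (latA t a m) (fun i => (x i : ℝ) + v i) : ℂ) * τ)) := by
    intro v τ hτ
    have h4 := (level4 (latTri p hp t a ht) hτ (v 0) (v 1) (v 2) (v 3) 0 0 0 0).1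
    have e : g4 (latTri p hp t a ht) τ (v 0) (v 1) (v 2) (v 3) 0 0 0 0 =
        (fun x : Fin 4 → ℤ =>
          cexp (2 * π * I * (TH.quad (latA t a m) (fun i => (x i : ℝ) + v i) : ℂ) * τ)) ∘ e4 :=
      funext (fun x => g4_eq p hp t a m ht h τ v x)
    rw [e] at h4
    exact (e4.summable_iff).mp h4
  intro v τ hτ
  have S2 : Summable (dualTerm p t a m τ v) :=
    dualTerm_summable p hp t a m (fun τ' hτ' => by simpa using S1 0 τ' hτ') hτ v
  refine ⟨S1 v τ hτ, S2, ?_⟩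
  have hpR : (0 : ℝ) < (p : ℝ) := by exact_mod_cast hp
  have htR : (0 : ℝ) < 4 * (t : ℝ) - 1 := by
    have : (1 : ℝ) ≤ (t : ℝ) := by exact_mod_cast ht
    linarith
  have hconst : kc (latTri p hp t a ht).c₁ τ * kc (latTri p hp t a ht).c₂ τ *
      kc (latTri p hp t a ht).c₃ τ * kc (latTri p hp t a ht).c₄ τ =
        1 / (p : ℂ) * (-1 / τ ^ 2) := by
    have := kc_prod (latTri p hp t a ht).hc₁ (latTri p hp t a ht).hc₂ (latTri p hp t a ht).hc₃
      (latTri p hp t a ht).hc₄ hpR (by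
        simp only [latTri]
        field_simp) hτ
    simpa using this
  calc ∑' x : Fin 4 → ℤ,
        cexp (2 * π * I * (TH.quad (latA t a m) (fun i => (x i : ℝ) + v i) : ℂ) * τ)
      = ∑' x : X4, g4 (latTri p hp t a ht) τ (v 0) (v 1) (v 2) (v 3) 0 0 0 0 x := by
        rw [← e4.tsum_eq]
        exact tsum_congr (fun x => (g4_eq p hp t a m ht h τ v x).symm)
    _ = T4 (latTri p hp t a ht) τ (v 0) (v 1) (v 2) (v 3) 0 0 0 0 :=
        (level4 (latTri p hp t a ht) hτ (v 0) (v 1) (v 2) (v 3) 0 0 0 0).2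
    _ = 1 / (p : ℂ) * (-1 / τ ^ 2) *
          ∑' y₁ : ℤ, ∑' y₂ : ℤ, ∑' y₃ : ℤ, ∑' y₄ : ℤ, dualTerm p t a m τ v ![y₁, y₂, y₃, y₄] := by
        rw [T4_nested, hconst]
        simp only [dprod_eq p hp t a m ht h hτ v]
    _ = 1 / (p : ℂ) * (-1 / τ ^ 2) * ∑' y : Fin 4 → ℤ, dualTerm p t a m τ v y := by
        rw [tsum_nested _ S2]

end Fermat.Agent.S16.InvC
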